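/-
EC-Frob (S58), block EC-F (helper24): **the three biquadratic forms of the addition–subtraction law
of a Weierstrass curve and their "no common zero" property.**

For `x₁ = f₁/f₂`, `x₂ = g₁/g₂` the `x`-coordinates `u = x(P+Q)`, `w = x(P−Q)` satisfy
`u + w = B*/A*`, `u w = C*/A*` with the bihomogeneous forms of bidegree `(2,2)`

* `A* = (f₁ g₂ − g₁ f₂)²`,
* `B* = 2 (f₁g₂ + g₁f₂) f₁g₁ + b₂ f₁g₁ f₂g₂ + b₄ (f₁g₂ + g₁f₂) f₂g₂ + b₆ (f₂g₂)²`,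
* `C* = (f₁g₁)² − b₄ f₁g₁ f₂g₂ − b₆ (f₁g₂ + g₁f₂) f₂g₂ − b₈ (f₂g₂)²`.

Main results:
* `cert` : the explicit certificate `U · Ψ₂Sq + V · Φ₂ = Δ` (homogeneous form), over any commutative
  ring, in every characteristic;
* `not_common_zero` : over a field with `Δ ≠ 0` the three forms have no common zero on `P¹ × P¹`;
* `no_common_prime_factor` : for coprime pairs `(f₁,f₂)`, `(g₁,g₂)` of polynomials over a field, no
  irreducible polynomial divides `A*`, `B*`, `C*`;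
* `exists_natDegree_eq` : one of `A*`, `B*`, `C*` has degree exactly
  `2 max(deg f₁, deg f₂) + 2 max(deg g₁, deg g₂)`, and all have at most that degree.
-/
import Mathlib

set_option autoImplicit false

namespace Fermat.Agent.ECF.Forms

open Polynomial

section Ring

variable {R : Type*} [CommRing R] (W : WeierstrassCurve R)

/-- `A* = (f₁ g₂ − g₁ f₂)²`. -/
def formA (f₁ f₂ g₁ g₂ : R) : R := (f₁ * g₂ - g₁ * f₂) ^ 2

/-- `B*`: the numerator of `x(P+Q) + x(P−Q)`. -/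
def formB (f₁ f₂ g₁ g₂ : R) : R :=
  2 * (f₁ * g₂ + g₁ * f₂) * (f₁ * g₁) + W.b₂ * (f₁ * g₁) * (f₂ * g₂) +
    W.b₄ * (f₁ * g₂ + g₁ * f₂) * (f₂ * g₂) + W.b₆ * (f₂ * g₂) ^ 2

/-- `C*`: the numerator of `x(P+Q) · x(P−Q)`. -/
def formC (f₁ f₂ g₁ g₂ : R) : R :=
  (f₁ * g₁) ^ 2 - W.b₄ * (f₁ * g₁) * (f₂ * g₂) - W.b₆ * (f₁ * g₂ + g₁ * f₂) * (f₂ * g₂) -
    W.b₈ * (f₂ * g₂) ^ 2

/-! ### Functoriality and homogeneity -/

theorem map_formA {S : Type*} [CommRing S] (φ : R →+* S) (f₁ f₂ g₁ g₂ : R) :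
    φ (formA f₁ f₂ g₁ g₂) = formA (φ f₁) (φ f₂) (φ g₁) (φ g₂) := by
  simp only [formA, map_pow, map_sub, map_mul]

theorem map_formB {S : Type*} [CommRing S] (φ : R →+* S) (f₁ f₂ g₁ g₂ : R) :
    φ (formB W f₁ f₂ g₁ g₂) = formB (W.map φ) (φ f₁) (φ f₂) (φ g₁) (φ g₂) := by
  simp only [formB, map_add, map_mul, map_pow, map_ofNat, WeierstrassCurve.map_b₂,
    WeierstrassCurve.map_b₄, WeierstrassCurve.map_b₆]

theorem map_formC {S : Type*} [CommRing S] (φ : R →+* S) (f₁ f₂ g₁ g₂ : R) :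
    φ (formC W f₁ f₂ g₁ g₂) = formC (W.map φ) (φ f₁) (φ f₂) (φ g₁) (φ g₂) := by
  simp only [formC, map_sub, map_add, map_mul, map_pow, WeierstrassCurve.map_b₄,
    WeierstrassCurve.map_b₆, WeierstrassCurve.map_b₈]

theorem formA_smul (c d f₁ f₂ g₁ g₂ : R) :
    formA (c * f₁) (c * f₂) (d * g₁) (d * g₂) = c ^ 2 * d ^ 2 * formA f₁ f₂ g₁ g₂ := by
  simp only [formA]; ring

theorem formB_smul (c d f₁ f₂ g₁ g₂ : R) :
    formB W (c * f₁) (c * f₂) (d * g₁) (d * g₂) = c ^ 2 * d ^ 2 * formB W f₁ f₂ g₁ g₂ := by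
  simp only [formB]; ring

theorem formC_smul (c d f₁ f₂ g₁ g₂ : R) :
    formC W (c * f₁) (c * f₂) (d * g₁) (d * g₂) = c ^ 2 * d ^ 2 * formC W f₁ f₂ g₁ g₂ := by
  simp only [formC]; ring

/-! ### The diagonal and the certificate -/

/-- The homogenised `Ψ₂² = 4t³ + b₂t² + 2b₄t + b₆`. -/
def psiH (t₁ t₂ : R) : R :=
  4 * t₁ ^ 3 + W.b₂ * t₁ ^ 2 * t₂ + 2 * W.b₄ * t₁ * t₂ ^ 2 + W.b₆ * t₂ ^ 3

/-- The homogenised `Φ₂ = t⁴ − b₄t² − 2b₆t − b₈`. -/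
def phiH (t₁ t₂ : R) : R :=
  t₁ ^ 4 - W.b₄ * t₁ ^ 2 * t₂ ^ 2 - 2 * W.b₆ * t₁ * t₂ ^ 3 - W.b₈ * t₂ ^ 4

theorem formA_diag (t₁ t₂ : R) : formA t₁ t₂ t₁ t₂ = 0 := by
  simp only [formA]; ring

theorem formB_diag (t₁ t₂ : R) : formB W t₁ t₂ t₁ t₂ = t₂ * psiH W t₁ t₂ := by
  simp only [formB, psiH]; ring

theorem formC_diag (t₁ t₂ : R) : formC W t₁ t₂ t₁ t₂ = phiH W t₁ t₂ := by
  simp only [formC, phiH]; ring

/-- The cofactor of `Ψ₂²` in the certificate. -/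
def certU (t₁ t₂ : R) : R :=
  12 * t₁ ^ 3 - W.b₂ * t₁ ^ 2 * t₂ - 10 * W.b₄ * t₁ * t₂ ^ 2 + (W.b₂ * W.b₄ - 27 * W.b₆) * t₂ ^ 3

/-- The cofactor of `Φ₂` in the certificate. -/
def certV (t₁ t₂ : R) : R :=
  -48 * t₁ ^ 2 - 8 * W.b₂ * t₁ * t₂ + (W.b₂ ^ 2 - 32 * W.b₄) * t₂ ^ 2

/-- **The certificate** `U · Ψ₂² + V · Φ₂ = Δ` (homogeneous form), in every characteristic. -/
theorem cert (t₁ t₂ : R) :
    certU W t₁ t₂ * psiH W t₁ t₂ + certV W t₁ t₂ * phiH W t₁ t₂ = W.Δ * t₂ ^ 6 := by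
  simp only [certU, certV, psiH, phiH, WeierstrassCurve.Δ, WeierstrassCurve.b₂,
    WeierstrassCurve.b₄, WeierstrassCurve.b₆, WeierstrassCurve.b₈]
  ring

end Ring

/-! ### No common zero over a field -/

section Field

variable {k : Type*} [Field k] (W : WeierstrassCurve k)

/-- **The three forms have no common zero on `P¹ × P¹`** when `Δ ≠ 0`. -/
theorem not_common_zero (hΔ : W.Δ ≠ 0) {f₁ f₂ g₁ g₂ : k} (hf : f₁ ≠ 0 ∨ f₂ ≠ 0)
    (hg : g₁ ≠ 0 ∨ g₂ ≠ 0) :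
    ¬ (formA f₁ f₂ g₁ g₂ = 0 ∧ formB W f₁ f₂ g₁ g₂ = 0 ∧ formC W f₁ f₂ g₁ g₂ = 0) := by
  rintro ⟨hA, hB, hC⟩
  have hA' : f₁ * g₂ = g₁ * f₂ := by
    have := pow_eq_zero_iff (two_ne_zero) |>.mp hA
    exact sub_eq_zero.mp this
  by_cases hf2 : f₂ = 0
  · -- the point `(∞, ∞)`
    have hf1 : f₁ ≠ 0 := hf.resolve_right (not_not.mpr hf2)
    have hg2 : g₂ = 0 := by
      rw [hf2, mul_zero] at hA'
      exact (mul_eq_zero.mp hA').resolve_left hf1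
    have hg1 : g₁ ≠ 0 := hg.resolve_right (not_not.mpr hg2)
    rw [hf2, hg2] at hC
    have : formC W f₁ 0 g₁ 0 = (f₁ * g₁) ^ 2 := by simp only [formC]; ring
    rw [this] at hC
    exact mul_ne_zero hf1 hg1 (pow_eq_zero_iff two_ne_zero |>.mp hC)
  · -- a finite point
    have hg2 : g₂ ≠ 0 := by
      intro h0
      have hg1 : g₁ ≠ 0 := hg.resolve_right (not_not.mpr h0)
      rw [h0, mul_zero] at hA'
      exact (mul_ne_zero hg1 hf2) hA'.symm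
    set d := g₂ / f₂ with hd
    have hd0 : d ≠ 0 := div_ne_zero hg2 hf2
    have e1 : g₁ = d * f₁ := by
      rw [hd]
      field_simp
      linear_combination -hA'
    have e2 : g₂ = d * f₂ := by
      rw [hd]
      field_simp
    have hB' : formB W f₁ f₂ g₁ g₂ = d ^ 2 * (f₂ * psiH W f₁ f₂) := by
      have := formB_smul W 1 d f₁ f₂ f₁ f₂
      rw [one_mul, one_mul, ← e1, ← e2, formB_diag] at this
      rw [this]; ring
    have hC' : formC W f₁ f₂ g₁ g₂ = d ^ 2 * phiH W f₁ f₂ := by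
      have := formC_smul W 1 d f₁ f₂ f₁ f₂
      rw [one_mul, one_mul, ← e1, ← e2, formC_diag] at this
      rw [this]; ring
    have hpsi : psiH W f₁ f₂ = 0 := by
      rw [hB'] at hB
      have h1 := (mul_eq_zero.mp hB).resolve_left (pow_ne_zero 2 hd0)
      exact (mul_eq_zero.mp h1).resolve_left hf2
    have hphi : phiH W f₁ f₂ = 0 := by
      rw [hC'] at hC
      exact (mul_eq_zero.mp hC).resolve_left (pow_ne_zero 2 hd0)
    have hc := cert W f₁ f₂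
    rw [hpsi, hphi, mul_zero, mul_zero, add_zero] at hc
    exact mul_ne_zero hΔ (pow_ne_zero 6 hf2) hc.symm

end Field

/-! ### Bridge to the addition–subtraction law (`S05/AddSub`) -/

section Bridge

variable {K : Type*} [Field K] (W : WeierstrassCurve K)

/-- If `s (x₁ − x₂)² = 2(x₁+x₂)x₁x₂ + b₂x₁x₂ + b₄(x₁+x₂) + b₆` (the sum form of the
addition–subtraction law, `s = x(P+Q) + x(P−Q)`) with `x₁ = f₁/f₂`, `x₂ = g₁/g₂`, then
`s · A* = B*`. -/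
theorem sum_mul_formA {f₁ f₂ g₁ g₂ s : K} (hf₂ : f₂ ≠ 0) (hg₂ : g₂ ≠ 0)
    (h : s * (f₁ / f₂ - g₁ / g₂) ^ 2 =
      2 * (f₁ / f₂ + g₁ / g₂) * (f₁ / f₂ * (g₁ / g₂)) + W.b₂ * (f₁ / f₂ * (g₁ / g₂)) +
        W.b₄ * (f₁ / f₂ + g₁ / g₂) + W.b₆) :
    s * formA f₁ f₂ g₁ g₂ = formB W f₁ f₂ g₁ g₂ := by
  have e : formA f₁ f₂ g₁ g₂ = (f₁ / f₂ - g₁ / g₂) ^ 2 * (f₂ * g₂) ^ 2 := by
    simp only [formA]
    field_simp
  rw [e, ← mul_assoc, h]
  simp only [formB]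
  field_simp

/-- If `p (x₁ − x₂)² = (x₁x₂)² − b₄x₁x₂ − b₆(x₁+x₂) − b₈` (the product form of the
addition–subtraction law, `p = x(P+Q) · x(P−Q)`) with `x₁ = f₁/f₂`, `x₂ = g₁/g₂`, then
`p · A* = C*`. -/
theorem prod_mul_formA {f₁ f₂ g₁ g₂ p : K} (hf₂ : f₂ ≠ 0) (hg₂ : g₂ ≠ 0)
    (h : p * (f₁ / f₂ - g₁ / g₂) ^ 2 =
      (f₁ / f₂ * (g₁ / g₂)) ^ 2 - W.b₄ * (f₁ / f₂ * (g₁ / g₂)) -
        W.b₆ * (f₁ / f₂ + g₁ / g₂) - W.b₈) :
    p * formA f₁ f₂ g₁ g₂ = formC W f₁ f₂ g₁ g₂ := by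
  have e : formA f₁ f₂ g₁ g₂ = (f₁ / f₂ - g₁ / g₂) ^ 2 * (f₂ * g₂) ^ 2 := by
    simp only [formA]
    field_simp
  rw [e, ← mul_assoc, h]
  simp only [formC]
  field_simp

end Bridge

/-! ### Polynomial pairs: no common prime factor -/

section Poly

variable {κ : Type*} [Field κ] (W : WeierstrassCurve κ)

/-- For coprime pairs `(f₁, f₂)`, `(g₁, g₂)` of polynomials, no irreducible polynomial divides
all three forms. -/
theorem no_common_prime_factor (hΔ : W.Δ ≠ 0) {f₁ f₂ g₁ g₂ : κ[X]} (hf : IsCoprime f₁ f₂)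
    (hg : IsCoprime g₁ g₂) {π : κ[X]} (hπ : Irreducible π) :
    ¬ (π ∣ formA f₁ f₂ g₁ g₂ ∧ π ∣ formB (W.map C) f₁ f₂ g₁ g₂ ∧
      π ∣ formC (W.map C) f₁ f₂ g₁ g₂) := by
  haveI : Fact (Irreducible π) := ⟨hπ⟩
  rintro ⟨hA, hB, hC⟩
  rw [← AdjoinRoot.mk_eq_zero] at hA hB hC
  rw [map_formA] at hA
  rw [map_formB] at hB
  rw [map_formC] at hC
  have hne : ∀ {a b : κ[X]}, IsCoprime a b →
      AdjoinRoot.mk π a ≠ 0 ∨ AdjoinRoot.mk π b ≠ 0 := by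
    intro a b hab
    by_contra hcon
    push Not at hcon
    obtain ⟨ha, hb⟩ := hcon
    rw [AdjoinRoot.mk_eq_zero] at ha hb
    obtain ⟨u, v, huv⟩ := hab
    have h1 : π ∣ 1 := by
      rw [← huv]
      exact dvd_add (Dvd.dvd.mul_left ha u) (Dvd.dvd.mul_left hb v)
    exact hπ.not_isUnit (isUnit_of_dvd_one h1)
  refine not_common_zero ((W.map C).map (AdjoinRoot.mk π)) ?_ (hne hf) (hne hg) ⟨hA, hB, hC⟩
  rw [WeierstrassCurve.map_Δ, WeierstrassCurve.map_Δ]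
  exact (map_ne_zero ((AdjoinRoot.mk π).comp C)).mpr hΔ

/-- A common divisor of the three forms at coprime pairs is a unit. -/
theorem isUnit_of_dvd_forms (hΔ : W.Δ ≠ 0) {f₁ f₂ g₁ g₂ : κ[X]} (hf : IsCoprime f₁ f₂)
    (hg : IsCoprime g₁ g₂) {d : κ[X]} (hA : d ∣ formA f₁ f₂ g₁ g₂)
    (hB : d ∣ formB (W.map C) f₁ f₂ g₁ g₂) (hC : d ∣ formC (W.map C) f₁ f₂ g₁ g₂) :
    IsUnit d := by
  by_contra hd
  by_cases hd0 : d = 0
  · subst hd0
    exact no_common_prime_factor W hΔ hf hg (irreducible_X (R := κ))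
      ⟨(zero_dvd_iff.mp hA) ▸ dvd_zero _, (zero_dvd_iff.mp hB) ▸ dvd_zero _,
        (zero_dvd_iff.mp hC) ▸ dvd_zero _⟩
  · obtain ⟨π, hπ, hπd⟩ := WfDvdMonoid.exists_irreducible_factor hd hd0
    exact no_common_prime_factor W hΔ hf hg hπ
      ⟨hπd.trans hA, hπd.trans hB, hπd.trans hC⟩

end Poly

/-! ### The forms as bilinear expressions in the quadratic monomials -/

section Bil

variable {R : Type*} [CommRing R]

/-- `Σ c_{ab} p_a q_b`. -/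
def bilR (c : Fin 3 → Fin 3 → R) (p q : Fin 3 → R) : R := ∑ a, ∑ b, c a b * (p a * q b)

/-- The quadratic monomials `(f₁², f₁f₂, f₂²)`. -/
def sq3 (f₁ f₂ : R) : Fin 3 → R := ![f₁ * f₁, f₁ * f₂, f₂ * f₂]

/-- The coefficient matrix of `A*`. -/
def cA : Fin 3 → Fin 3 → R := ![![0, 0, 1], ![0, -2, 0], ![1, 0, 0]]

/-- The coefficient matrix of `B*`. -/
def cB (W : WeierstrassCurve R) : Fin 3 → Fin 3 → R :=
  ![![0, 2, 0], ![2, W.b₂, W.b₄], ![0, W.b₄, W.b₆]]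

/-- The coefficient matrix of `C*`. -/
def cC (W : WeierstrassCurve R) : Fin 3 → Fin 3 → R :=
  ![![1, 0, 0], ![0, -W.b₄, -W.b₆], ![0, -W.b₆, -W.b₈]]

theorem formA_eq_bilR (f₁ f₂ g₁ g₂ : R) :
    formA f₁ f₂ g₁ g₂ = bilR cA (sq3 f₁ f₂) (sq3 g₁ g₂) := by
  simp only [formA, bilR, sq3, cA, Fin.sum_univ_three, Matrix.cons_val_zero, Matrix.cons_val_one,
    Matrix.cons_val_two, Matrix.head_cons, Matrix.tail_cons, Matrix.cons_val]
  ring

theorem formB_eq_bilR (W : WeierstrassCurve R) (f₁ f₂ g₁ g₂ : R) :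
    formB W f₁ f₂ g₁ g₂ = bilR (cB W) (sq3 f₁ f₂) (sq3 g₁ g₂) := by
  simp only [formB, bilR, sq3, cB, Fin.sum_univ_three, Matrix.cons_val_zero, Matrix.cons_val_one,
    Matrix.cons_val_two, Matrix.head_cons, Matrix.tail_cons, Matrix.cons_val]
  ring

theorem formC_eq_bilR (W : WeierstrassCurve R) (f₁ f₂ g₁ g₂ : R) :
    formC W f₁ f₂ g₁ g₂ = bilR (cC W) (sq3 f₁ f₂) (sq3 g₁ g₂) := by
  simp only [formC, bilR, sq3, cC, Fin.sum_univ_three, Matrix.cons_val_zero, Matrix.cons_val_one,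
    Matrix.cons_val_two, Matrix.head_cons, Matrix.tail_cons, Matrix.cons_val]
  ring

end Bil

/-! ### Degrees -/

section Degree

variable {κ : Type*} [Field κ]

theorem natDegree_bilR_le {c : Fin 3 → Fin 3 → κ} {P Q : Fin 3 → κ[X]} {M N : ℕ}
    (hP : ∀ a, (P a).natDegree ≤ M) (hQ : ∀ b, (Q b).natDegree ≤ N) :
    (bilR (fun a b => C (c a b)) P Q).natDegree ≤ M + N := by
  unfold bilR
  refine natDegree_sum_le_of_forall_le _ _ fun a _ => ?_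
  refine natDegree_sum_le_of_forall_le _ _ fun b _ => ?_
  refine (natDegree_C_mul_le _ _).trans ?_
  exact natDegree_mul_le_of_le (hP a) (hQ b)

theorem coeff_bilR {c : Fin 3 → Fin 3 → κ} {P Q : Fin 3 → κ[X]} {M N : ℕ}
    (hP : ∀ a, (P a).natDegree ≤ M) (hQ : ∀ b, (Q b).natDegree ≤ N) :
    (bilR (fun a b => C (c a b)) P Q).coeff (M + N) =
      bilR c (fun a => (P a).coeff M) (fun b => (Q b).coeff N) := by
  unfold bilR
  rw [finset_sum_coeff]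
  refine Finset.sum_congr rfl fun a _ => ?_
  rw [finset_sum_coeff]
  refine Finset.sum_congr rfl fun b _ => ?_
  rw [coeff_C_mul, coeff_mul_add_eq_of_natDegree_le (hP a) (hQ b)]

theorem natDegree_sq3_le {f₁ f₂ : κ[X]} {m : ℕ} (h₁ : f₁.natDegree ≤ m) (h₂ : f₂.natDegree ≤ m)
    (a : Fin 3) : (sq3 f₁ f₂ a).natDegree ≤ m + m := by
  fin_cases a
  · exact natDegree_mul_le_of_le h₁ h₁
  · exact natDegree_mul_le_of_le h₁ h₂
  · exact natDegree_mul_le_of_le h₂ h₂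

theorem coeff_sq3 {f₁ f₂ : κ[X]} {m : ℕ} (h₁ : f₁.natDegree ≤ m) (h₂ : f₂.natDegree ≤ m)
    (a : Fin 3) : (sq3 f₁ f₂ a).coeff (m + m) = sq3 (f₁.coeff m) (f₂.coeff m) a := by
  fin_cases a
  · exact coeff_mul_add_eq_of_natDegree_le h₁ h₁
  · exact coeff_mul_add_eq_of_natDegree_le h₁ h₂
  · exact coeff_mul_add_eq_of_natDegree_le h₂ h₂

theorem cA_C (a b : Fin 3) : (cA : Fin 3 → Fin 3 → κ[X]) a b = C ((cA : Fin 3 → Fin 3 → κ) a b) := by
  fin_cases a <;> fin_cases b <;> simp [cA, ← C_ofNat]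

theorem cB_C (W : WeierstrassCurve κ) (a b : Fin 3) : cB (W.map C) a b = C (cB W a b) := by
  fin_cases a <;> fin_cases b <;> simp [cB, ← C_ofNat]

theorem cC_C (W : WeierstrassCurve κ) (a b : Fin 3) : cC (W.map C) a b = C (cC W a b) := by
  fin_cases a <;> fin_cases b <;> simp [cC]

variable (W : WeierstrassCurve κ) {f₁ f₂ g₁ g₂ : κ[X]} {m n : ℕ}
  (hf₁ : f₁.natDegree ≤ m) (hf₂ : f₂.natDegree ≤ m) (hg₁ : g₁.natDegree ≤ n)
  (hg₂ : g₂.natDegree ≤ n)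

include hf₁ hf₂ hg₁ hg₂

theorem natDegree_formA_le : (formA f₁ f₂ g₁ g₂).natDegree ≤ (m + m) + (n + n) := by
  rw [formA_eq_bilR, show (cA : Fin 3 → Fin 3 → κ[X]) = fun a b => C ((cA : Fin 3 → Fin 3 → κ) a b)
    from funext fun a => funext fun b => cA_C a b]
  exact natDegree_bilR_le (natDegree_sq3_le hf₁ hf₂) (natDegree_sq3_le hg₁ hg₂)

theorem natDegree_formB_le : (formB (W.map C) f₁ f₂ g₁ g₂).natDegree ≤ (m + m) + (n + n) := by
  rw [formB_eq_bilR, show cB (W.map C) = fun a b => C (cB W a b)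
    from funext fun a => funext fun b => cB_C W a b]
  exact natDegree_bilR_le (natDegree_sq3_le hf₁ hf₂) (natDegree_sq3_le hg₁ hg₂)

theorem natDegree_formC_le : (formC (W.map C) f₁ f₂ g₁ g₂).natDegree ≤ (m + m) + (n + n) := by
  rw [formC_eq_bilR, show cC (W.map C) = fun a b => C (cC W a b)
    from funext fun a => funext fun b => cC_C W a b]
  exact natDegree_bilR_le (natDegree_sq3_le hf₁ hf₂) (natDegree_sq3_le hg₁ hg₂)

theorem coeff_formA :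
    (formA f₁ f₂ g₁ g₂).coeff ((m + m) + (n + n)) =
      formA (f₁.coeff m) (f₂.coeff m) (g₁.coeff n) (g₂.coeff n) := by
  rw [formA_eq_bilR, show (cA : Fin 3 → Fin 3 → κ[X]) = fun a b => C ((cA : Fin 3 → Fin 3 → κ) a b)
    from funext fun a => funext fun b => cA_C a b,
    coeff_bilR (natDegree_sq3_le hf₁ hf₂) (natDegree_sq3_le hg₁ hg₂), formA_eq_bilR]
  congr 1
  · exact funext fun a => coeff_sq3 hf₁ hf₂ a
  · exact funext fun b => coeff_sq3 hg₁ hg₂ b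

theorem coeff_formB :
    (formB (W.map C) f₁ f₂ g₁ g₂).coeff ((m + m) + (n + n)) =
      formB W (f₁.coeff m) (f₂.coeff m) (g₁.coeff n) (g₂.coeff n) := by
  rw [formB_eq_bilR, show cB (W.map C) = fun a b => C (cB W a b)
    from funext fun a => funext fun b => cB_C W a b,
    coeff_bilR (natDegree_sq3_le hf₁ hf₂) (natDegree_sq3_le hg₁ hg₂), formB_eq_bilR]
  congr 1
  · exact funext fun a => coeff_sq3 hf₁ hf₂ a
  · exact funext fun b => coeff_sq3 hg₁ hg₂ b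

theorem coeff_formC :
    (formC (W.map C) f₁ f₂ g₁ g₂).coeff ((m + m) + (n + n)) =
      formC W (f₁.coeff m) (f₂.coeff m) (g₁.coeff n) (g₂.coeff n) := by
  rw [formC_eq_bilR, show cC (W.map C) = fun a b => C (cC W a b)
    from funext fun a => funext fun b => cC_C W a b,
    coeff_bilR (natDegree_sq3_le hf₁ hf₂) (natDegree_sq3_le hg₁ hg₂), formC_eq_bilR]
  congr 1
  · exact funext fun a => coeff_sq3 hf₁ hf₂ a
  · exact funext fun b => coeff_sq3 hg₁ hg₂ b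

omit hf₁ hf₂ hg₁ hg₂ in
/-- **Exact degree.** If `m = max (deg f₁, deg f₂)` and `n = max (deg g₁, deg g₂)` (i.e. the pairs
of coefficients at `m`, `n` are nonzero), then one of `A*`, `B*`, `C*` has degree exactly
`2m + 2n`. -/
theorem exists_natDegree_eq (hΔ : W.Δ ≠ 0) (hf₁ : f₁.natDegree ≤ m) (hf₂ : f₂.natDegree ≤ m)
    (hg₁ : g₁.natDegree ≤ n) (hg₂ : g₂.natDegree ≤ n)
    (hf : f₁.coeff m ≠ 0 ∨ f₂.coeff m ≠ 0) (hg : g₁.coeff n ≠ 0 ∨ g₂.coeff n ≠ 0) :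
    (formA f₁ f₂ g₁ g₂).natDegree = (m + m) + (n + n) ∨
    (formB (W.map C) f₁ f₂ g₁ g₂).natDegree = (m + m) + (n + n) ∨
    (formC (W.map C) f₁ f₂ g₁ g₂).natDegree = (m + m) + (n + n) := by
  by_contra hcon
  push Not at hcon
  obtain ⟨h1, h2, h3⟩ := hcon
  have key : ∀ {p : κ[X]}, p.natDegree ≤ (m + m) + (n + n) → p.natDegree ≠ (m + m) + (n + n) →
      p.coeff ((m + m) + (n + n)) = 0 := by
    intro p hle hne
    exact coeff_eq_zero_of_natDegree_lt (lt_of_le_of_ne hle hne)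
  have hA := key (natDegree_formA_le hf₁ hf₂ hg₁ hg₂) h1
  have hB := key (natDegree_formB_le W hf₁ hf₂ hg₁ hg₂) h2
  have hC := key (natDegree_formC_le W hf₁ hf₂ hg₁ hg₂) h3
  rw [coeff_formA hf₁ hf₂ hg₁ hg₂] at hA
  rw [coeff_formB W hf₁ hf₂ hg₁ hg₂] at hB
  rw [coeff_formC W hf₁ hf₂ hg₁ hg₂] at hC
  exact not_common_zero W hΔ hf hg ⟨hA, hB, hC⟩

end Degree

end Fermat.Agent.ECF.Forms
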